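import Fermat.Agent.H4.Leg

/-!
# Node basics for the Legendre-type model: translation by `T₀ = (0,0)`
-/

set_option autoImplicit false

namespace Fermat.Agent.H56

open WeierstrassCurve WeierstrassCurve.Affine Fermat.Agent.H4

variable {L : Type*} [Field L] [DecidableEq L]
variable {W : WeierstrassCurve.Affine L} {ε e : L}

omit [DecidableEq L] in
/-- `T₀ = (0,0)` is a nonsingular point when `ε e ≠ 0`. -/
theorem nonsingular_T0 (hW : IsLeg W ε e) (hεe : ε * e ≠ 0) : W.Nonsingular 0 0 := by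
  rw [hW.toIsShort.nonsingular_iff, hW.a₄, hW.a₆]
  refine ⟨by ring, Or.inl ?_⟩
  simpa using hεe

/-- Translation by `T₀ = (0,0)`: `(x,y) + T₀ = (εe/x, -εe y/x²)` for `x ≠ 0`. -/
theorem add_T0 (hW : IsLeg W ε e) (hεe : ε * e ≠ 0) {x y : L} (h : W.Nonsingular x y)
    (hx : x ≠ 0) :
    ∃ h' : W.Nonsingular (ε * e / x) (-(ε * e * y / x ^ 2)),
      Point.some x y h + Point.some 0 0 (nonsingular_T0 hW hεe) =
        Point.some (ε * e / x) (-(ε * e * y / x ^ 2)) h' := by
  obtain ⟨x₃, y₃, ℓ, ν, h₃, hsum, h1, h2, h3, -, h5, -, -, -⟩ :=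
    hW.toIsShort.add_rel h (nonsingular_T0 hW hεe) (fun hc => hx hc.1)
  have hν : ν = 0 := by linear_combination -h2
  subst hν
  have hx₃ : x₃ = ε * e / x := by
    rw [eq_div_iff hx]
    rw [hW.a₄] at h5
    linear_combination h5
  have hℓ : ℓ = y / x := by
    rw [eq_div_iff hx]
    linear_combination -h1
  have hy₃ : y₃ = -(ε * e * y / x ^ 2) := by
    have : y₃ = -(ℓ * x₃) := by linear_combination -h3
    rw [this, hℓ, hx₃]
    field_simp
  subst hx₃
  subst hy₃
  exact ⟨h₃, hsum⟩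

/-- `T₀` has order `2`. -/
theorem two_nsmul_T0 (hW : IsLeg W ε e) (hεe : ε * e ≠ 0) :
    (2 : ℕ) • Point.some 0 0 (nonsingular_T0 hW hεe) = 0 := by
  rw [two_nsmul]
  exact hW.toIsShort.add_eq_zero_of _ _ rfl (by simp)

end Fermat.Agent.H56
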